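import Fermat.Agent.Milliken.Theorem
import Mathlib.Order.CountableDenseLinearOrder

/-!
# Finite big Ramsey degrees of the rationals

The binary tree, in the order where a node is above its left part and below its right part, is
the order of the rationals, and strong embeddings preserve it. Finitely many nodes lie in a copy
of bounded height, so Milliken's theorem bounds the number of colours.
-/

set_option autoImplicit false

namespace FA.Milliken

open List

/-- The binary nodes in the order left part, node, right part. -/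
structure BNode : Type where
  /-- The path from the root. -/
  path : List Bool

/-- The digits giving the order. -/
def BNode.digits (s : List Bool) : List ℕ :=
  s.map (fun b => if b then 2 else 0) ++ [1]

theorem BNode.digits_injective : Function.Injective BNode.digits := fun s t h => by
  rw [BNode.digits, BNode.digits, List.append_cancel_right_eq] at h
  exact List.map_injective_iff.2 (fun a b hab => by cases a <;> cases b <;> simp_all) h

instance : LinearOrder BNode :=
  LinearOrder.lift' (fun x => BNode.digits x.path) fun x y h => by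
    cases x; cases y
    exact congrArg BNode.mk (BNode.digits_injective h)

instance : Countable BNode :=
  Function.Injective.countable (f := BNode.path) fun x y h => by
    cases x; cases y; exact congrArg _ h

instance : Nonempty BNode := ⟨⟨[]⟩⟩

theorem BNode.lt_def {x y : BNode} : x < y ↔ BNode.digits x.path < BNode.digits y.path :=
  Iff.rfl

/-- `s` is in the left part of some node and `t` in the right part, or one is that node. -/
def Splits (s t : List Bool) : Prop :=
  ∃ r, (r ++ [false] <+: s ∧ r ++ [true] <+: t) ∨ (r ++ [false] <+: s ∧ t = r) ∨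
    (s = r ∧ r ++ [true] <+: t)

theorem splits_of_digits_lt : ∀ {s t : List Bool}, BNode.digits s < BNode.digits t → Splits s t
  | [], [], h => absurd h (lt_irrefl _)
  | [], b :: t, h => ⟨[], .inr (.inr ⟨rfl, by
      cases b
      · simp [BNode.digits, List.cons_lt_cons_iff] at h
      · simp⟩)⟩
  | a :: s, [], h => ⟨[], .inr (.inl ⟨by
      cases a
      · simp
      · simp [BNode.digits, List.cons_lt_cons_iff] at h, rfl⟩)⟩
  | a :: s, b :: t, h => by
    cases a <;> cases b
    case false.true => exact ⟨[], .inl ⟨by simp, by simp⟩⟩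
    case true.false => simp [BNode.digits, List.cons_lt_cons_iff] at h
    case false.false =>
      simp only [BNode.digits, List.map_cons, List.cons_append, List.cons_lt_cons_iff, lt_irrefl,
        false_or, true_and] at h
      obtain ⟨r, hr⟩ := splits_of_digits_lt h
      exact ⟨false :: r, by simpa [List.cons_prefix_cons] using hr⟩
    case true.true =>
      simp only [BNode.digits, List.map_cons, List.cons_append, List.cons_lt_cons_iff, lt_irrefl,
        false_or, true_and] at h
      obtain ⟨r, hr⟩ := splits_of_digits_lt h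
      exact ⟨true :: r, by simpa [List.cons_prefix_cons] using hr⟩

theorem digits_lt_of_splits {s t : List Bool} (h : Splits s t) :
    BNode.digits s < BNode.digits t := by
  have key : ∀ r x y, BNode.digits x < BNode.digits y →
      BNode.digits (r ++ x) < BNode.digits (r ++ y) := fun r x y hxy => by
    induction r with
    | nil => exact hxy
    | cons a r ih =>
      simp only [List.cons_append, BNode.digits, List.map_cons]
      exact List.cons_lt_cons_iff.2 (.inr ⟨rfl, ih⟩)
  obtain ⟨r, ⟨⟨x, rfl⟩, ⟨y, rfl⟩⟩ | ⟨⟨x, rfl⟩, rfl⟩ | ⟨rfl, ⟨y, rfl⟩⟩⟩ := h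
  · rw [List.append_assoc, List.append_assoc]
    exact key r _ _ (by simp [BNode.digits, List.cons_lt_cons_iff])
  · conv_rhs => rw [← List.append_nil t]
    rw [List.append_assoc]
    exact key t _ _ (by simp [BNode.digits, List.cons_lt_cons_iff])
  · conv_lhs => rw [← List.append_nil s]
    rw [List.append_assoc]
    exact key s _ _ (by simp [BNode.digits, List.cons_lt_cons_iff])

theorem BNode.lt_iff_splits {x y : BNode} : x < y ↔ Splits x.path y.path :=
  BNode.lt_def.trans ⟨splits_of_digits_lt, digits_lt_of_splits⟩

instance : NoMaxOrder BNode :=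
  ⟨fun x => ⟨⟨x.path ++ [true]⟩,
    BNode.lt_iff_splits.2 ⟨x.path, .inr (.inr ⟨rfl, prefix_refl _⟩)⟩⟩⟩

instance : NoMinOrder BNode :=
  ⟨fun x => ⟨⟨x.path ++ [false]⟩,
    BNode.lt_iff_splits.2 ⟨x.path, .inr (.inl ⟨prefix_refl _, rfl⟩)⟩⟩⟩

instance : DenselyOrdered BNode := ⟨fun x y h => by
  obtain ⟨r, ⟨hx, hy⟩ | ⟨hx, hy⟩ | ⟨hx, hy⟩⟩ := BNode.lt_iff_splits.1 h
  · exact ⟨⟨r⟩, BNode.lt_iff_splits.2 ⟨r, .inr (.inl ⟨hx, rfl⟩)⟩,
      BNode.lt_iff_splits.2 ⟨r, .inr (.inr ⟨rfl, hy⟩)⟩⟩
  · exact ⟨⟨x.path ++ [true]⟩, BNode.lt_iff_splits.2 ⟨x.path, .inr (.inr ⟨rfl, prefix_refl _⟩)⟩,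
      BNode.lt_iff_splits.2 ⟨r, .inr (.inl ⟨hx.trans (prefix_append _ _), hy⟩)⟩⟩
  · exact ⟨⟨y.path ++ [false]⟩,
      BNode.lt_iff_splits.2 ⟨r, .inr (.inr ⟨hx, hy.trans (prefix_append _ _)⟩)⟩,
      BNode.lt_iff_splits.2 ⟨y.path, .inr (.inl ⟨prefix_refl _, rfl⟩)⟩⟩⟩

/-- Strong embeddings of the binary tree preserve the order. -/
theorem strictMono_map {ι : Type} (E : StrongEmb ι Bool) (i : ι) :
    StrictMono fun x : BNode => (⟨E.map i x.path⟩ : BNode) := fun x y h => by
  refine BNode.lt_iff_splits.2 ?_
  have step : ∀ {r : List Bool} {b s}, r ++ [b] <+: s → E.map i r ++ [b] <+: E.map i s :=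
    fun {r b s} hs => (E.map_succ i r b).trans (E.map_prefix i hs)
  obtain ⟨r, ⟨hx, hy⟩ | ⟨hx, hy⟩ | ⟨hx, hy⟩⟩ := BNode.lt_iff_splits.1 h
  · exact ⟨E.map i r, .inl ⟨step hx, step hy⟩⟩
  · exact ⟨E.map i r, .inr (.inl ⟨step hx, congrArg (E.map i) hy⟩)⟩
  · exact ⟨E.map i r, .inr (.inr ⟨congrArg (E.map i) hx, step hy⟩)⟩

/-- **Envelopes.** Finitely many nodes are in a copy of bounded height. -/
theorem exists_envelope {A : Type} [Nonempty A] (X : Finset (List A)) :
    ∃ F : StrongEmb Unit A, ∀ x ∈ X, ∃ s : List A, s.length < X.card * X.card ∧ F.map () s = x := by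
  classical
  obtain ⟨a₀⟩ := ‹Nonempty A›
  -- levels where two members split, or end
  let meetLen : List A → List A → ℕ := fun x y =>
    Nat.findGreatest (fun m => x.take m = y.take m ∧ m ≤ y.length) x.length
  let Lv : Finset ℕ := (X ×ˢ X).image fun p => meetLen p.1 p.2
  have hself : ∀ x ∈ X, x.length ∈ Lv := fun x hx => by
    refine Finset.mem_image.2 ⟨(x, x), Finset.mem_product.2 ⟨hx, hx⟩, ?_⟩
    exact le_antisymm (Nat.findGreatest_le _) (Nat.le_findGreatest le_rfl ⟨rfl, le_rfl⟩)
  have hcard : Lv.card ≤ X.card * X.card :=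
    Finset.card_image_le.trans (Finset.card_product X X).le
  obtain ⟨L, hL, hLmem⟩ : ∃ L : ℕ → ℕ, StrictMono L ∧ ∀ l ∈ Lv, ∃ j < Lv.card, L j = l := by
    let big := Lv.sup id + 1
    refine ⟨fun j => if h : j < Lv.card then Lv.orderEmbOfFin rfl ⟨j, h⟩ else big + j, ?_, ?_⟩
    · refine strictMono_nat_of_lt_succ fun j => ?_
      split_ifs with h1 h2 h2
      · exact (Lv.orderEmbOfFin rfl).strictMono (by simp)
      · have := Finset.le_sup (f := id) (Lv.orderEmbOfFin_mem rfl ⟨j, h1⟩)
        simp only [id_eq] at this
        omega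
      · omega
      · omega
    · intro l hl
      obtain ⟨⟨j, hj⟩, he⟩ : l ∈ Set.range (Lv.orderEmbOfFin rfl) := by
        rw [Finset.range_orderEmbOfFin]
        exact hl
      exact ⟨j, hj, by simp [hj, he]⟩
  -- members above one node at a level agree up to the next level
  have hagree : ∀ j x y, x ∈ X → y ∈ X → ∀ m, m ≤ x.length → m ≤ y.length →
      (∀ i < j, L i < m) → m ≤ L j → (∀ i < j, x.take (L i + 1) = y.take (L i + 1)) →
      x.take m = y.take m := fun j x y hx hy m hmx hmy hlow hmj hsame => by
    by_contra hne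
    obtain ⟨i, hi, hiL⟩ :=
      hLmem _ (Finset.mem_image.2 ⟨(x, y), Finset.mem_product.2 ⟨hx, hy⟩, rfl⟩)
    have hspec : x.take (meetLen x y) = y.take (meetLen x y) ∧ meetLen x y ≤ y.length :=
      Nat.findGreatest_spec (P := fun m => x.take m = y.take m ∧ m ≤ y.length) (Nat.zero_le _)
        ⟨by simp, Nat.zero_le _⟩
    dsimp only at hiL
    have hlt : meetLen x y < m := by
      by_contra! hge
      exact hne (by
        simpa [List.take_take, Nat.min_eq_left hge] using congrArg (List.take m) hspec.1)
    have hij : i < j := hL.lt_iff_lt.1 (hiL ▸ lt_of_lt_of_le hlt hmj)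
    have h1 := hsame i hij
    have h2 : L i + 1 ≤ meetLen x y :=
      Nat.le_findGreatest ((hlow i hij).trans_le hmx) ⟨h1, (hlow i hij).trans_le hmy⟩
    omega
  -- the nodes of the copy, level by level
  let above : ℕ → List A → List A := fun m q =>
    if h : ∃ x ∈ X, q <+: x ∧ m ≤ x.length then h.choose.take m
    else q ++ List.replicate (m - q.length) a₀
  have habove : ∀ m q, q.length ≤ m → (above m q).length = m ∧ q <+: above m q := fun m q hq => by
    simp only [above]
    split_ifs with h
    · exact ⟨by simp [h.choose_spec.2.2], List.prefix_take_iff.2 ⟨h.choose_spec.2.1, hq⟩⟩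
    · exact ⟨by simp [hq], List.prefix_append _ _⟩
  let node : (ℕ → A) → ℕ → List A := fun g n =>
    Nat.rec (above (L 0) []) (fun m q => above (L (m + 1)) (q ++ [g m])) n
  have hnode : ∀ g n, (node g n).length = L n := fun g n => by
    induction n with
    | zero => exact (habove _ _ (Nat.zero_le _)).1
    | succ n ih =>
      have h := hL n.lt_succ_self
      exact (habove _ _ (by
        rw [List.length_append, List.length_singleton]
        exact Nat.succ_le_of_lt (ih.trans_lt h))).1
  have hsucc : ∀ g n, node g n ++ [g n] <+: node g (n + 1) := fun g n => by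
    have h := hL n.lt_succ_self
    exact (habove _ _ (by
      rw [List.length_append, List.length_singleton]
      exact Nat.succ_le_of_lt ((hnode g n).trans_lt h))).2
  -- every member is reached
  have hreach : ∀ x ∈ X, ∀ j, L j ≤ x.length →
      node (fun i => x.getD (L i) a₀) j = x.take (L j) := by
    intro x hx j
    induction j with
    | zero =>
      intro hj
      have hex : ∃ y ∈ X, ([] : List A) <+: y ∧ L 0 ≤ y.length := ⟨x, hx, List.nil_prefix, hj⟩
      show above (L 0) [] = _
      simp only [above, dif_pos hex]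
      exact hagree 0 _ x hex.choose_spec.1 hx _ hex.choose_spec.2.2 hj
        (fun i hi => absurd hi (Nat.not_lt_zero i)) le_rfl fun i hi => absurd hi (Nat.not_lt_zero i)
    | succ j ih =>
      intro hj
      have hlt := hL j.lt_succ_self
      have hstep : node (fun i => x.getD (L i) a₀) j ++ [x.getD (L j) a₀] = x.take (L j + 1) := by
        rw [ih (hlt.le.trans hj), List.take_succ_eq_append_getElem (lt_of_lt_of_le hlt hj),
          List.getD_eq_getElem _ _ (lt_of_lt_of_le hlt hj)]
      show above (L (j + 1)) (node _ j ++ [x.getD (L j) a₀]) = _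
      rw [hstep]
      have hex : ∃ y ∈ X, x.take (L j + 1) <+: y ∧ L (j + 1) ≤ y.length :=
        ⟨x, hx, List.take_prefix _ _, hj⟩
      simp only [above, dif_pos hex]
      refine hagree (j + 1) _ x hex.choose_spec.1 hx _ hex.choose_spec.2.2 hj
        (fun i hi => hL hi) le_rfl fun i hi => ?_
      have h := List.prefix_iff_eq_take.1 hex.choose_spec.2.1
      rw [List.length_take, Nat.min_eq_left (show L j + 1 ≤ x.length from hlt.trans_le hj)] at h
      have hle : L i + 1 ≤ L j + 1 :=
        Nat.succ_le_succ (hL.monotone (Nat.le_of_lt_succ hi))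
      simpa [List.take_take, Nat.min_eq_left hle] using (congrArg (List.take (L i + 1)) h).symm
  have hcongr : ∀ g g' n, (∀ m < n, g m = g' m) → node g n = node g' n := fun g g' n h => by
    induction n with
    | zero => rfl
    | succ n ih =>
      show above _ (node g n ++ [g n]) = above _ (node g' n ++ [g' n])
      rw [ih fun m hm => h m (hm.trans n.lt_succ_self), h n n.lt_succ_self]
  refine ⟨⟨fun _ s => node (fun i => s.getD i a₀) s.length, L, hL, fun _ s => hnode _ _,
    fun _ s a => ?_⟩, fun x hx => ?_⟩
  · rw [List.length_append, List.length_singleton]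
    have h := hsucc (fun i => (s ++ [a]).getD i a₀) s.length
    rwa [show (s ++ [a]).getD s.length a₀ = a by simp,
      hcongr _ (fun i => s.getD i a₀) s.length fun m hm => by
        simp [List.getD_eq_getElem?_getD, List.getElem?_append_left hm]] at h
  · obtain ⟨j, hj, hjx⟩ := hLmem _ (hself x hx)
    refine ⟨(List.range j).map fun i => x.getD (L i) a₀, by simpa using hj.trans_le hcard, ?_⟩
    show node _ ((List.range j).map fun i => x.getD (L i) a₀).length = x
    rw [List.length_map, List.length_range, hcongr _ (fun i => x.getD (L i) a₀) j fun m hm => by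
      simp [List.getD_eq_getElem?_getD, hm]]
    rw [hreach x hx j hjx.le, List.take_of_length_le hjx.ge]

/-- The number of colours in the bound for `n`-element sets. -/
noncomputable def degreeBound (n : ℕ) : ℕ :=
  Nat.card (Finset {s : List Bool // s.length < n * n})

/-- Big Ramsey degrees of the binary tree order are finite. -/
theorem exists_few_colours (n : ℕ) {C : Type} [Finite C] (f : Finset BNode → C) :
    ∃ e : BNode ↪o BNode, ∃ T : Finset C, T.card ≤ degreeBound n ∧
      ∀ X : Finset BNode, X.card = n → f (X.map e.toEmbedding) ∈ T := by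
  classical
  have : Finite {s : List Bool // s.length < n * n} :=
    Set.Finite.to_subtype (s := {s : List Bool | s.length < n * n})
      ((List.finite_length_le Bool (n * n)).subset fun s hs => Nat.le_of_lt hs)
  have : Fintype {s : List Bool // s.length < n * n} := Fintype.ofFinite _
  obtain ⟨E, c, hc⟩ := millikenAt (A := Bool) (n * n) Unit
    (Finset {s : List Bool // s.length < n * n} → C)
    fun g P => f (P.image fun s => ⟨g () s⟩)
  refine ⟨OrderEmbedding.ofStrictMono _ (strictMono_map E ()), Finset.univ.image c,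
    Finset.card_image_le.trans ?_, fun X hX => ?_⟩
  · rw [degreeBound, Nat.card_eq_fintype_card, Finset.card_univ]
  obtain ⟨F, hF⟩ := exists_envelope (X.image BNode.path)
  have hcard : (X.image BNode.path).card ≤ n := Finset.card_image_le.trans hX.le
  choose pre hpre hval using fun x (hx : x ∈ X) => hF x.path (Finset.mem_image_of_mem _ hx)
  let P : Finset {s : List Bool // s.length < n * n} := X.attach.image fun x =>
    ⟨pre x.1 x.2, (hpre x.1 x.2).trans_le (Nat.mul_le_mul hcard hcard)⟩
  refine Finset.mem_image.2 ⟨P, Finset.mem_univ _, ?_⟩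
  have h := congrFun (hc F) P
  rw [← h]
  refine congrArg f ?_
  ext z
  simp only [P, Finset.image_image, Finset.mem_image, Finset.mem_attach, true_and, Subtype.exists,
    Finset.mem_map, Function.comp_apply]
  constructor
  · rintro ⟨x, hx, rfl⟩
    refine ⟨x, hx, ?_⟩
    show (⟨E.map () x.path⟩ : BNode) = ⟨E.map () (F.map () (pre x hx))⟩
    rw [hval x hx]
  · rintro ⟨x, hx, rfl⟩
    refine ⟨x, hx, ?_⟩
    show (⟨E.map () (F.map () (pre x hx))⟩ : BNode) = ⟨E.map () x.path⟩
    rw [hval x hx]

/-- **Finite big Ramsey degrees of the rationals.** -/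
theorem exists_few_colours_rat (n : ℕ) {C : Type} [Finite C] (f : Finset ℚ → C) :
    ∃ e : ℚ ↪o ℚ, ∃ T : Finset C, T.card ≤ degreeBound n ∧
      ∀ X : Finset ℚ, X.card = n → f (X.map e.toEmbedding) ∈ T := by
  obtain ⟨i⟩ := Order.iso_of_countable_dense BNode ℚ
  obtain ⟨e, T, hT, h⟩ :=
    exists_few_colours n fun X : Finset BNode => f (X.map i.toEquiv.toEmbedding)
  refine ⟨i.symm.toOrderEmbedding.trans (e.trans i.toOrderEmbedding), T, hT, fun X hX => ?_⟩
  have h' := h (X.map i.symm.toEquiv.toEmbedding) (by simpa using hX)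
  simp only [Finset.map_map] at h'
  exact h'

end FA.Milliken
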