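import Fermat.Agent.Root.SummaryHalpernLauchli

/-!
# Strong embeddings of a regular tree

A strong subtree of the tree of sequences from a finite alphabet is the image of a map of the tree
to itself which sends levels to levels and immediate successors above immediate successors.
Families of such maps with common levels compose.
-/

set_option autoImplicit false

universe u v

namespace FA.Milliken

open Determinacy

/-- Strong embeddings, one for each index, with common levels. -/
structure StrongEmb (ι : Type u) (A : Type v) : Type max u v where
  /-- The maps. -/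
  map : ι → List A → List A
  /-- The levels. -/
  lev : ℕ → ℕ
  strictMono : StrictMono lev
  length_map : ∀ i s, (map i s).length = lev s.length
  map_succ : ∀ i s a, map i s ++ [a] <+: map i (s ++ [a])

variable {ι : Type u} {A : Type v}

namespace StrongEmb

theorem map_prefix (E : StrongEmb ι A) (i : ι) {s t : List A} (h : s <+: t) :
    E.map i s <+: E.map i t := by
  obtain ⟨r, rfl⟩ := h
  induction r using List.reverseRecOn with
  | nil => simp
  | append_singleton r a ih =>
    rw [← List.append_assoc]
    exact ih.trans ((List.prefix_append _ _).trans (E.map_succ i _ a))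

/-- The identity. -/
protected def id : StrongEmb ι A :=
  ⟨fun _ s => s, fun n => n, strictMono_id, fun _ _ => rfl, fun _ _ _ => List.prefix_refl _⟩

/-- Composition. -/
protected def comp (E F : StrongEmb ι A) : StrongEmb ι A where
  map i s := E.map i (F.map i s)
  lev n := E.lev (F.lev n)
  strictMono := E.strictMono.comp F.strictMono
  length_map i s := by rw [E.length_map, F.length_map]
  map_succ i s a := (E.map_succ i _ a).trans (E.map_prefix i (F.map_succ i s a))

/-- A copy of the first `k` levels: the colours are given to these. -/
def restrict (E : StrongEmb ι A) (k : ℕ) : ι → {s : List A // s.length < k} → List A :=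
  fun i s => E.map i s.1

end StrongEmb

/-- The node at the levels `L` with the letters of `s` at the lower levels and `a₀` elsewhere. -/
noncomputable def padded (a₀ : A) (L : ℕ → ℕ) (g : ℕ → A) (m : ℕ) : List A :=
  open Classical in
  (List.range (L m)).map fun p => if h : ∃ i < m, p = L i then g h.choose else a₀

theorem padded_congr (a₀ : A) (L : ℕ → ℕ) {g g' : ℕ → A} {m : ℕ} (h : ∀ i < m, g i = g' i) :
    padded a₀ L g m = padded a₀ L g' m := by
  refine List.map_congr_left fun p _ => ?_
  split_ifs with hp
  exacts [h _ hp.choose_spec.1, rfl]

theorem padded_succ (a₀ : A) {L : ℕ → ℕ} (hL : StrictMono L) (g : ℕ → A) (m : ℕ) :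
    padded a₀ L g m ++ [g m] <+: padded a₀ L g (m + 1) := by
  classical
  rw [List.prefix_iff_eq_take]
  have hlt : L m < L (m + 1) := hL (Nat.lt_succ_self m)
  refine List.ext_getElem ?_ fun p h1 h2 => ?_
  · simp [padded]; omega
  simp only [padded, List.getElem_take, List.getElem_map, List.getElem_range]
  rcases lt_or_eq_of_le (show p ≤ L m by simp [padded] at h1; omega) with hp | rfl
  · rw [List.getElem_append_left (by simpa [padded] using hp)]
    simp only [List.getElem_map, List.getElem_range]
    by_cases hex : ∃ i < m, p = L i
    · have hex' : ∃ i < m + 1, p = L i := hex.imp fun i hi => ⟨hi.1.trans m.lt_succ_self, hi.2⟩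
      rw [dif_pos hex, dif_pos hex',
        hL.injective (hex.choose_spec.2.symm.trans hex'.choose_spec.2)]
    · have hex' : ¬∃ i < m + 1, p = L i := by
        rintro ⟨i, -, rfl⟩
        exact hex ⟨i, hL.lt_iff_lt.1 hp, rfl⟩
      rw [dif_neg hex, dif_neg hex']
  · have hex : ∃ i < m + 1, L m = L i := ⟨m, m.lt_succ_self, rfl⟩
    rw [List.getElem_append_right (by simp), dif_pos hex,
      ← hL.injective hex.choose_spec.2]
    simp

/-- The canonical embedding with given levels. -/
noncomputable def StrongEmb.pad (a₀ : A) (L : ℕ → ℕ) (hL : StrictMono L) : StrongEmb ι A where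
  map _ s := padded a₀ L (fun i => s.getD i a₀) s.length
  lev := L
  strictMono := hL
  length_map i s := by simp [padded]
  map_succ i s a := by
    rw [List.length_append, List.length_singleton]
    have h := padded_succ a₀ hL (fun j => (s ++ [a]).getD j a₀) s.length
    rwa [show (s ++ [a]).getD s.length a₀ = a by simp,
      padded_congr a₀ L (g' := fun j => s.getD j a₀) fun j hj => by
        simp [List.getD_eq_getElem?_getD, List.getElem?_append_left hj]] at h

/-- A finite copy of height `k`, with common levels. -/
def IsCopy (k : ℕ) (g : ι → {s : List A // s.length < k} → List A) : Prop :=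
  ∃ L : ℕ → ℕ, (∀ m, m + 1 < k → L m < L (m + 1)) ∧ (∀ i s, (g i s).length = L s.1.length) ∧
    ∀ i s a (h : (s ++ [a]).length < k),
      g i ⟨s, lt_of_le_of_lt (by simp) h⟩ ++ [a] <+: g i ⟨s ++ [a], h⟩

theorem StrongEmb.isCopy_restrict (E : StrongEmb ι A) (k : ℕ) : IsCopy k (E.restrict k) :=
  ⟨E.lev, fun m _ => E.strictMono m.lt_succ_self, fun i s => E.length_map i s.1,
    fun i s a _ => E.map_succ i s a⟩

/-- Every finite copy is the beginning of a strong embedding. -/
theorem IsCopy.exists_extension [Nonempty A] {k : ℕ} {g : ι → {s : List A // s.length < k} → List A}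
    (hg : IsCopy k g) : ∃ E : StrongEmb ι A, E.restrict k = g := by
  classical
  obtain ⟨a₀⟩ := ‹Nonempty A›
  cases k with
  | zero => exact ⟨StrongEmb.id, funext fun i => funext fun s => (Nat.not_lt_zero _ s.2).elim⟩
  | succ k =>
    obtain ⟨L, hL, hlen, hsucc⟩ := hg
    let L' : ℕ → ℕ := fun m => if m ≤ k then L m else L k + (m - k)
    have hL' : StrictMono L' := strictMono_nat_of_lt_succ fun m => by
      rcases lt_trichotomy m k with h | rfl | h
      · simp only [L', if_pos h.le, if_pos (show m + 1 ≤ k by omega)]
        exact hL m (by omega)
      · simp [L']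
      · simp only [L', if_neg h.not_ge, if_neg (show ¬m + 1 ≤ k by omega)]
        omega
    let map : ι → List A → List A := fun i s =>
      g i ⟨s.take k, by simp⟩ ++ s.drop k
    have hval : ∀ i s (h : s.length < k + 1), map i s = g i ⟨s, h⟩ := fun i s h => by
      simp [map, List.take_of_length_le (Nat.le_of_lt_succ h),
        List.drop_of_length_le (Nat.le_of_lt_succ h)]
    refine ⟨⟨map, L', hL', fun i s => ?_, fun i s a => ?_⟩,
      funext fun i => funext fun s => hval i s.1 s.2⟩
    · simp only [map, List.length_append, hlen, L', List.length_take, List.length_drop]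
      split_ifs with h
      · rw [Nat.min_eq_right h, Nat.sub_eq_zero_of_le h, add_zero]
      · rw [Nat.min_eq_left (le_of_not_ge h)]
    · by_cases h : (s ++ [a]).length < k + 1
      · rw [hval i s (lt_of_le_of_lt (by simp) h), hval i _ h]
        exact hsucc i s a h
      · have hks : k ≤ s.length := by simp at h; omega
        simp [map, List.take_append_of_le_length hks, List.drop_append_of_le_length hks]

end FA.Milliken
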