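import Fermat.Agent.Milliken.Embeddings

/-!
# One step and the fusion

Given the theorem for the height `k` and all numbers of trees, one embedding which leaves the
first levels alone makes the colour of the copies of height `k + 1` which begin at a level depend
on their first nodes only; the steps for all levels have a limit.
-/

set_option autoImplicit false

universe u v

namespace FA.Milliken

open Determinacy

/-- Milliken's theorem for the height `k`, all numbers of trees and all numbers of colours. -/
def MillikenAt (A : Type) (k : ℕ) : Prop :=
  ∀ (ι : Type) [Finite ι] (C : Type) [Finite C]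
    (f : (ι → {s : List A // s.length < k} → List A) → C),
    ∃ (E : StrongEmb ι A) (c : C), ∀ F : StrongEmb ι A, f ((E.comp F).restrict k) = c

variable {A : Type}

/-- The embedding below the nodes of one level. -/
theorem exists_step [Finite A] [Nonempty A] {k : ℕ} (hk : MillikenAt A k) {ι : Type} [Finite ι]
    {C : Type} [Finite C] (f : (ι → {s : List A // s.length < k + 1} → List A) → C)
    (E : StrongEmb ι A) (j : ℕ) :
    ∃ G : StrongEmb ι A, (∀ i s, s.length ≤ j → G.map i s = s) ∧ (∀ l, l ≤ j → G.lev l = l) ∧
      ∃ g : (ι → List A) → C, ∀ F : StrongEmb ι A, F.lev 0 = j →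
        f ((E.comp (G.comp F)).restrict (k + 1)) = g fun i => F.map i [] := by
  classical
  obtain ⟨a₀⟩ := ‹Nonempty A›
  have : Finite {u : List A // u.length = j + 1} := (List.finite_length_eq A (j + 1)).to_subtype
  have : Finite {u : List A // u.length = j} := (List.finite_length_eq A j).to_subtype
  let κ : Type := ι × {u : List A // u.length = j + 1}
  let combine : (ι → {u : List A // u.length = j}) → (κ → {s : List A // s.length < k} → List A) →
      ι → {s : List A // s.length < k + 1} → List A := fun t x i s =>
    match s with
    | ⟨[], _⟩ => E.map i (t i).1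
    | ⟨a :: r, h⟩ => E.map i ((t i).1 ++ [a] ++
        x (i, ⟨(t i).1 ++ [a], by simp [(t i).2]⟩) ⟨r, by simpa using h⟩)
  obtain ⟨H, c, hH⟩ := hk κ ((ι → {u : List A // u.length = j}) → C) fun x t => f (combine t x)
  let lev : ℕ → ℕ := fun l => if l ≤ j then l else j + 1 + H.lev (l - (j + 1))
  let map : ι → List A → List A := fun i s =>
    if h : j < s.length then
      s.take (j + 1) ++ H.map (i, ⟨s.take (j + 1), by simp; omega⟩) (s.drop (j + 1))
    else s
  have hlev : StrictMono lev := strictMono_nat_of_lt_succ fun l => by
    rcases lt_trichotomy l j with h | rfl | h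
    · simp only [lev, if_pos h.le, if_pos (show l + 1 ≤ j by omega)]
      omega
    · simp only [lev, if_pos le_rfl, if_neg (show ¬l + 1 ≤ l by omega)]
      omega
    · simp only [lev, if_neg h.not_ge, if_neg (show ¬l + 1 ≤ j by omega)]
      rw [show l + 1 - (j + 1) = l - (j + 1) + 1 by omega]
      have := H.strictMono (l - (j + 1)).lt_succ_self
      simp only [Nat.succ_eq_add_one] at this
      omega
  let G : StrongEmb ι A := ⟨map, lev, hlev, fun i s => by
      by_cases h : j < s.length
      · simp only [map, dif_pos h, lev, if_neg h.not_ge, List.length_append, H.length_map,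
          List.length_take, List.length_drop]
        omega
      · simp only [map, dif_neg h, lev, if_pos (not_lt.1 h)], fun i s a => by
      by_cases h : j < s.length
      · have h' : j < (s ++ [a]).length := by simp; omega
        have hle : j + 1 ≤ s.length := h
        simp only [map, dif_pos h, dif_pos h', List.take_append_of_le_length hle,
          List.drop_append_of_le_length hle, List.append_assoc]
        exact List.prefix_append_right_inj _ |>.2 (H.map_succ _ _ a)
      · by_cases h' : j < (s ++ [a]).length
        · have : s.length = j := by simp at h'; omega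
          simp only [map, dif_neg h, dif_pos h']
          have e : (s ++ [a]).take (j + 1) = s ++ [a] :=
            List.take_of_length_le (by simp [this])
          exact List.IsPrefix.trans (by rw [e]) (List.prefix_append _ _)
        · simp only [map, dif_neg h, dif_neg h']
          exact List.prefix_refl _⟩
  refine ⟨G, fun i s hs => dif_neg hs.not_gt, fun l hl => if_pos hl,
    fun t => if h : ∀ i, (t i).length = j then c fun i => ⟨t i, h i⟩ else c fun _ =>
      ⟨List.replicate j a₀, by simp⟩, fun F hF => ?_⟩
  have ht : ∀ i, (F.map i []).length = j := fun i => by rw [F.length_map]; exact hF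
  simp only [dif_pos ht]
  -- the part of `F` above each node of the next level
  have hge : ∀ l, j + 1 ≤ F.lev (l + 1) := fun l => by
    have := F.strictMono (show 0 < l + 1 by omega)
    omega
  let lev' : ℕ → ℕ := fun l => F.lev (l + 1) - (j + 1)
  have hlev' : StrictMono lev' := strictMono_nat_of_lt_succ fun l => by
    have h1 := F.strictMono (Nat.lt_succ_self (l + 1))
    have h2 := hge l
    simp only [lev', Nat.succ_eq_add_one] at h1 ⊢
    omega
  let P : StrongEmb κ A := StrongEmb.pad a₀ lev' hlev'
  let F' : StrongEmb κ A :=
    ⟨fun q r => if q.2.1.take j = F.map q.1 [] then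
        (F.map q.1 (q.2.1.getD j a₀ :: r)).drop (j + 1) else P.map q r, lev', hlev', fun q r => by
      split_ifs
      · simp [lev', F.length_map]
      · exact P.length_map q r, fun q r b => by
      split_ifs
      · have h := F.map_succ q.1 (q.2.1.getD j a₀ :: r) b
        rw [List.cons_append] at h
        have h2 := h.drop (j + 1)
        rwa [List.drop_append_of_le_length (by rw [F.length_map]; exact hge _)] at h2
      · exact P.map_succ q r b⟩
  rw [← hH F']
  refine congrArg f (funext fun i => funext fun ⟨s, hs⟩ => ?_)
  cases s with
  | nil =>
    show E.map i (G.map i (F.map i [])) = E.map i (F.map i [])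
    simp only [G, map, dif_neg (ht i).le.not_gt]
  | cons a r =>
    show E.map i (G.map i (F.map i (a :: r))) =
      E.map i (F.map i [] ++ [a] ++ H.map (i, ⟨F.map i [] ++ [a], _⟩) (F'.map (i, _) r))
    have hlong : j < (F.map i (a :: r)).length := by
      rw [F.length_map]
      exact hge _
    have htake : (F.map i (a :: r)).take (j + 1) = F.map i [] ++ [a] := by
      have h := (F.map_succ i [] a).trans (F.map_prefix i (show [a] <+: a :: r from ⟨r, rfl⟩))
      rw [List.prefix_iff_eq_take, List.length_append, List.length_singleton, ht i] at h
      exact h.symm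
    refine congrArg _ ?_
    simp only [G, map, dif_pos hlong, htake]
    simp only [F', List.take_left' (ht i), if_true]
    congr 2
    simp [List.getD_eq_getElem?_getD, ← ht i]

/-- The composition of the first `n` members of a sequence of steps. -/
def chain {ι : Type u} {A : Type v} (G : ℕ → StrongEmb ι A) (j : ℕ) : ℕ → StrongEmb ι A
  | 0 => StrongEmb.id
  | n + 1 => (chain G j n).comp (G (j + n))

theorem map_chain_add {ι : Type u} {A : Type v} (G : ℕ → StrongEmb ι A) (j m : ℕ) :
    ∀ n i s, (chain G j (m + n)).map i s = (chain G j m).map i ((chain G (j + m) n).map i s) := by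
  intro n
  induction n with
  | zero => exact fun i s => rfl
  | succ n ih =>
    intro i s
    show (chain G j (m + n)).map i ((G (j + (m + n))).map i s) = _
    rw [ih, ← Nat.add_assoc]
    rfl

/-- **Fusion.** -/
theorem exists_fusion {ι : Type u} {A : Type v} (G : ℕ → StrongEmb ι A)
    (hmap : ∀ j i s, s.length ≤ j → (G j).map i s = s) (hlev : ∀ j l, l ≤ j → (G j).lev l = l) :
    ∀ j, ∃ R : StrongEmb ι A, (∀ i s, s.length ≤ j → R.map i s = s) ∧
      (∀ l, l ≤ j → R.lev l = l) ∧
      ∀ i s n, s.length ≤ j + n → R.map i s = (chain G j n).map i s := by
  intro j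
  have hstable : ∀ i s n, s.length ≤ j + n → ∀ m, n ≤ m →
      (chain G j m).map i s = (chain G j n).map i s := fun i s n hs m hm => by
    induction hm with
    | refl => rfl
    | @step m hm ih =>
      show (chain G j m).map i ((G (j + m)).map i s) = _
      rw [hmap _ _ _ (hs.trans (Nat.add_le_add_left hm j)), ih]
  have hstableLev : ∀ l n, l ≤ j + n → ∀ m, n ≤ m →
      (chain G j m).lev l = (chain G j n).lev l := fun l n hl m hm => by
    induction hm with
    | refl => rfl
    | @step m hm ih =>
      show (chain G j m).lev ((G (j + m)).lev l) = _
      rw [hlev _ _ (hl.trans (Nat.add_le_add_left hm j)), ih]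
  refine ⟨⟨fun i s => (chain G j s.length).map i s, fun l => (chain G j l).lev l,
    strictMono_nat_of_lt_succ fun l => ?_, fun i s => (chain G j _).length_map i s,
    fun i s a => ?_⟩, fun i s hs => ?_, fun l hl => ?_, fun i s n hs => ?_⟩
  · rw [← hstableLev l l (by omega) (l + 1) (by omega)]
    exact (chain G j (l + 1)).strictMono l.lt_succ_self
  · rw [← hstable i s s.length (by omega) _ (show s.length ≤ (s ++ [a]).length by simp)]
    exact (chain G j _).map_succ i s a
  · exact hstable i s 0 hs _ (Nat.zero_le _)
  · exact hstableLev l 0 hl _ (Nat.zero_le _)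
  · show (chain G j s.length).map i s = _
    rcases le_total s.length n with h | h
    · exact (hstable i s s.length (by omega) n h).symm
    · exact hstable i s n hs _ h

end FA.Milliken
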