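import Fermat.Agent.Milliken.Fusion

/-!
# Milliken's theorem

Induction on the height, for all numbers of trees at once: fusion reduces a colouring of copies to
a colouring of tuples of nodes of one level, which the theorem of Halpern and Läuchli settles.
-/

set_option autoImplicit false

universe u v w

namespace FA.Milliken

open Determinacy HalpernLauchli

variable {A : Type} [Finite A] [Nonempty A]

omit [Finite A] in
/-- Strong subtrees of the full tree are images of strong embeddings. -/
theorem exists_emb_of_isStrongSubtree {ι : Type} {S : ι → Set (List A)} {ℓ : ℕ → ℕ}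
    (hℓ : StrictMono ℓ) (hS : ∀ i, IsStrongSubtree (GameTree.univ A) (S i) ℓ) :
    ∃ E : StrongEmb ι A, E.lev = ℓ ∧ ∀ i s, E.map i s ∈ S i := by
  obtain ⟨a₀⟩ := ‹Nonempty A›
  choose root hroot using fun i => (hS i).unique_root.exists
  have hnext : ∀ i j q a, ∃ v, q ∈ S i → q.length = ℓ j →
      v ∈ S i ∧ v.length = ℓ (j + 1) ∧ q ++ [a] <+: v := fun i j q a => by
    by_cases h : q ∈ S i ∧ q.length = ℓ j
    · obtain ⟨v, hv, -⟩ := (hS i).exists_unique_successor j q h.1 h.2 a trivial
      exact ⟨v, fun _ _ => hv⟩
    · exact ⟨q, fun h1 h2 => absurd ⟨h1, h2⟩ h⟩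
  choose next hnext using hnext
  let P : ι → (ℕ → A) → ℕ → List A := fun i g n =>
    Nat.rec (root i) (fun m q => next i m q (g m)) n
  have hP : ∀ i g n, P i g n ∈ S i ∧ (P i g n).length = ℓ n := fun i g n => by
    induction n with
    | zero => exact hroot i
    | succ n ih => exact ⟨(hnext i n _ (g n) ih.1 ih.2).1, (hnext i n _ (g n) ih.1 ih.2).2.1⟩
  have hcongr : ∀ i g g' n, (∀ m < n, g m = g' m) → P i g n = P i g' n := fun i g g' n h => by
    induction n with
    | zero => rfl
    | succ n ih =>
      show next i n (P i g n) (g n) = next i n (P i g' n) (g' n)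
      rw [ih fun m hm => h m (hm.trans n.lt_succ_self), h n n.lt_succ_self]
  refine ⟨⟨fun i s => P i (fun m => s.getD m a₀) s.length, ℓ, hℓ, fun i s => (hP i _ _).2,
    fun i s a => ?_⟩, rfl, fun i s => (hP i _ _).1⟩
  simp only [List.length_append, List.length_singleton]
  show _ <+: next i s.length (P i _ s.length) ((s ++ [a]).getD s.length a₀)
  rw [hcongr i (fun m => (s ++ [a]).getD m a₀) (fun m => s.getD m a₀) s.length fun m hm => by
    simp [List.getD_eq_getElem?_getD, List.getElem?_append_left hm]]
  have h : (s ++ [a]).getD s.length a₀ = a := by simp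
  rw [h]
  exact (hnext i _ _ a (hP i _ _).1 (hP i _ _).2).2.2

/-- Halpern and Läuchli for embeddings. -/
theorem exists_emb_monochromatic {ι : Type} [Finite ι] {C : Type} [Finite C]
    (f : (ι → List A) → C) :
    ∃ (E : StrongEmb ι A) (c : C), ∀ s : ι → List A, (∃ n, ∀ i, (s i).length = n) →
      f (fun i => E.map i (s i)) = c := by
  have : Fintype ι := Fintype.ofFinite ι
  let e := Fintype.equivFin ι
  obtain ⟨c, ℓ, S, hℓ, hS, hcol⟩ := halpern_lauchli
    (fun _ : Fin (Fintype.card ι) => GameTree.univ A)
    (fun _ => finite_level_univ) fun s => f fun i => s (e i)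
  obtain ⟨E, hEl, hES⟩ := exists_emb_of_isStrongSubtree (S := fun i => S (e i)) hℓ
    fun i => hS (e i)
  refine ⟨E, c, fun s ⟨n, hn⟩ => ?_⟩
  have h := hcol n (fun x => E.map (e.symm x) (s (e.symm x))) fun x => by
    refine ⟨?_, ?_⟩
    · convert hES (e.symm x) (s (e.symm x))
      exact (e.apply_symm_apply x).symm
    · rw [E.length_map, hn, hEl]
  simpa using h

/-- **Milliken's theorem**, inductively. -/
theorem millikenAt : ∀ k, MillikenAt A k := by
  intro k
  induction k with
  | zero =>
    intro ι _ C _ f
    refine ⟨StrongEmb.id, f fun _ s => (Nat.not_lt_zero _ s.2).elim, fun F => congrArg f ?_⟩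
    exact funext fun i => funext fun s => (Nat.not_lt_zero _ s.2).elim
  | succ k ih =>
    intro ι _ C _ f
    choose G hGmap hGlev g hg using fun (E : StrongEmb ι A) j => exists_step ih f E j
    -- compose the steps
    let E : ℕ → StrongEmb ι A := fun j => Nat.rec StrongEmb.id (fun j E => E.comp (G E j)) j
    let Gs : ℕ → StrongEmb ι A := fun j => G (E j) j
    have hE : ∀ j i s, (chain Gs 0 j).map i s = (E j).map i s := by
      intro j
      induction j with
      | zero => exact fun i s => rfl
      | succ j ihj =>
        intro i s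
        show (chain Gs 0 j).map i ((Gs (0 + j)).map i s) = (E j).map i ((G (E j) j).map i s)
        rw [ihj, Nat.zero_add]
    choose R hRmap hRlev hR using
      exists_fusion Gs (fun j => hGmap (E j) j) fun j => hGlev (E j) j
    have hsplit : ∀ j i s, (R 0).map i s =
        (E j).map i ((Gs j).map i ((R (j + 1)).map i s)) := fun j i s => by
      rw [hR 0 i s (j + 1 + s.length) (by omega), map_chain_add, Nat.zero_add,
        ← hR (j + 1) i s s.length (by omega), hE]
      rfl
    -- the colour of a copy depends on its first nodes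
    have hroot : ∀ F : StrongEmb ι A, f (((R 0).comp F).restrict (k + 1)) =
        g (E (F.lev 0)) (F.lev 0) fun i => F.map i [] := fun F => by
      have h := hg (E (F.lev 0)) (F.lev 0) ((R (F.lev 0 + 1)).comp F)
        (hRlev (F.lev 0 + 1) _ (Nat.le_succ _))
      have hr : (fun i => ((R (F.lev 0 + 1)).comp F).map i []) = fun i => F.map i [] :=
        funext fun i => hRmap _ i _ (le_of_eq_of_le (F.length_map i []) (Nat.le_succ _))
      rw [hr] at h
      rw [← h]
      exact congrArg f (funext fun i => funext fun s => hsplit _ i _)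
    cases isEmpty_or_nonempty ι with
    | inl hι =>
      exact ⟨StrongEmb.id, f fun i => isEmptyElim i, fun F =>
        congrArg f (funext fun i => isEmptyElim i)⟩
    | inr hι =>
      obtain ⟨i₀⟩ := hι
      obtain ⟨P, c, hP⟩ := exists_emb_monochromatic
        fun t : ι → List A => g (E (t i₀).length) (t i₀).length t
      refine ⟨(R 0).comp P, c, fun F => ?_⟩
      have := hP (fun i => F.map i []) ⟨F.lev 0, fun i => F.length_map i []⟩
      rw [← this, show (P.map i₀ (F.map i₀ [])).length = (P.comp F).lev 0 by
        rw [P.length_map, F.length_map]; rfl]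
      exact hroot (P.comp F)

end FA.Milliken
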